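/-
S25 package DEG, piece BRIDGE (helper6190): the relational base change `IsBC (𝒞.chartHom φ) L L'`
of the frozen interface identifies the Čech complex of `L'` with the fibre complex
`L.d.baseChange κ`.  Consequently
`chi L' = dim ker (L.d.baseChange κ) - dim coker (L.d.baseChange κ)`.

Imports the frozen `Defs` only.
-/
import Fermat.Agent.S25.Defs

set_option autoImplicit false
set_option linter.style.haveILetI false

universe u

namespace Fermat.Agent.S25.DEG.Bridge6190

open scoped TensorProduct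

open Fermat.Agent.S25

/-! ### Part 1: a semilinear map with the universal property of `B' ⊗[B] N` is a base change
along `R → S` when `B' = S ⊗[R] B` -/

section Part1

variable {R S B B' N N' : Type u} [CommRing R] [CommRing S] [CommRing B] [CommRing B']
  [Algebra R S] [Algebra R B] [Algebra S B'] [Algebra B B'] [Algebra R B']
  [IsScalarTower R B B'] [IsScalarTower R S B'] [Algebra.IsPushout R S B B']
  [AddCommGroup N] [Module R N] [Module B N] [IsScalarTower R B N]
  [AddCommGroup N'] [Module R N'] [Module S N'] [Module B' N'] [IsScalarTower S B' N']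
  [IsScalarTower R S N']

theorem bijective_liftBaseChange_of_univ
    (J : N →ₗ[R] N') (hJ : ∀ (b : B) (n : N), J (b • n) = algebraMap B B' b • J n)
    (univ : ∀ (Q : Type u) [AddCommGroup Q] [Module B' Q] (h : N →+ Q),
      (∀ (b : B) (n : N), h (b • n) = algebraMap B B' b • h n) →
        ∃! h' : N' →ₗ[B'] Q, ∀ n, h' (J n) = h n) :
    Function.Bijective (J.liftBaseChange S) := by
  letI : Module B N' := Module.compHom N' (algebraMap B B')
  haveI : IsScalarTower B B' N' := ⟨fun b b' n => by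
    change (b • b') • n = algebraMap B B' b • b' • n
    rw [Algebra.smul_def, mul_smul]⟩
  let Jb : N →ₗ[B] N' :=
    { toFun := J
      map_add' := J.map_add
      map_smul' := fun b n => hJ b n }
  have hbc : IsBaseChange B' Jb := by
    apply IsBaseChange.of_lift_unique
    intro Q _ _ _ _ g
    letI : AddCommGroup Q := Module.addCommMonoidToAddCommGroup B'
    obtain ⟨h', hh', huniq⟩ := univ Q g.toAddMonoidHom (fun b n => by
      change g (b • n) = algebraMap B B' b • g n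
      rw [g.map_smul, algebraMap_smul])
    refine ⟨h', ?_, ?_⟩
    · ext n
      exact hh' n
    · intro h'' hh''
      apply huniq
      intro n
      exact congrArg (fun l => l n) hh''
  let e : S ⊗[R] N ≃ₗ[S] N' :=
    (Algebra.IsPushout.cancelBaseChange R S B B' N).symm.trans (hbc.equiv.restrictScalars S)
  have he : ∀ x, J.liftBaseChange S x = e x := by
    intro x
    induction x using TensorProduct.induction_on with
    | zero => simp
    | tmul c n =>
      change c • J n = hbc.equiv ((Algebra.IsPushout.cancelBaseChange R S B B' N).symm (c ⊗ₜ n))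
      rw [Algebra.IsPushout.cancelBaseChange_symm_tmul, hbc.equiv_tmul, algebraMap_smul]
      rfl
    | add x y hx hy => rw [map_add, map_add, hx, hy]
  have : ⇑(J.liftBaseChange S) = ⇑e := funext he
  rw [this]
  exact e.bijective

end Part1

/-! ### Part 2: base change commutes with localisation (elementwise form) -/

section Part2

variable {R S : Type u} [CommRing R] [CommRing S] [Algebra R S]
  {N₁ N₁₂ N'₁ N'₁₂ : Type u} [AddCommGroup N₁] [Module R N₁] [AddCommGroup N₁₂] [Module R N₁₂]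
  [AddCommGroup N'₁] [Module S N'₁] [AddCommGroup N'₁₂] [Module S N'₁₂]

theorem bijective_of_localization
    (ι : N₁ →ₗ[R] N₁₂) (F : ℕ → N₁ →ₗ[R] N₁) (G H : ℕ → N₁₂ →ₗ[R] N₁₂)
    (hGH : ∀ m, G m ∘ₗ H m = LinearMap.id) (hHG : ∀ m, H m ∘ₗ G m = LinearMap.id)
    (hGadd : ∀ a b, G (a + b) = G a ∘ₗ G b)
    (hιF : ∀ m, ι ∘ₗ F m = G m ∘ₗ ι)
    (hsurj : ∀ y, ∃ n m, G m y = ι n)
    (ι' : N'₁ →ₗ[S] N'₁₂) (F' : ℕ → N'₁ →ₗ[S] N'₁) (G' : ℕ → N'₁₂ →ₗ[S] N'₁₂)
    (hG'inj : ∀ m, Function.Injective (G' m))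
    (hsurj' : ∀ y, ∃ n m, G' m y = ι' n)
    (hker' : ∀ n, ι' n = 0 → ∃ m, F' m n = 0)
    (E : S ⊗[R] N₁ →ₗ[S] N'₁) (hE : Function.Bijective E) (T : S ⊗[R] N₁₂ →ₗ[S] N'₁₂)
    (hT : T ∘ₗ ι.baseChange S = ι' ∘ₗ E)
    (hEF : ∀ m, E ∘ₗ (F m).baseChange S = F' m ∘ₗ E)
    (hTG : ∀ m, T ∘ₗ (G m).baseChange S = G' m ∘ₗ T) :
    Function.Bijective T := by
  -- pointwise forms
  have hT' : ∀ x, T (ι.baseChange S x) = ι' (E x) := fun x => congrArg (fun l => l x) hT
  have hEF' : ∀ m x, E ((F m).baseChange S x) = F' m (E x) :=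
    fun m x => congrArg (fun l => l x) (hEF m)
  have hTG' : ∀ m z, T ((G m).baseChange S z) = G' m (T z) :=
    fun m z => congrArg (fun l => l z) (hTG m)
  have hιFb : ∀ m x, ι.baseChange S ((F m).baseChange S x) =
      (G m).baseChange S (ι.baseChange S x) := by
    intro m x
    have h1 : (ι ∘ₗ F m).baseChange S = (G m ∘ₗ ι).baseChange S := by rw [hιF]
    rw [LinearMap.baseChange_comp, LinearMap.baseChange_comp] at h1
    exact congrArg (fun l => l x) h1
  have hHGb : ∀ m z, (H m).baseChange S ((G m).baseChange S z) = z := by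
    intro m z
    have h1 : (H m ∘ₗ G m).baseChange S = (LinearMap.id : N₁₂ →ₗ[R] N₁₂).baseChange S := by
      rw [hHG]
    rw [LinearMap.baseChange_comp, LinearMap.baseChange_id] at h1
    exact congrArg (fun l => l z) h1
  have hGHb : ∀ m z, (G m).baseChange S ((H m).baseChange S z) = z := by
    intro m z
    have h1 : (G m ∘ₗ H m).baseChange S = (LinearMap.id : N₁₂ →ₗ[R] N₁₂).baseChange S := by
      rw [hGH]
    rw [LinearMap.baseChange_comp, LinearMap.baseChange_id] at h1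
    exact congrArg (fun l => l z) h1
  have hGaddb : ∀ a b z, (G (a + b)).baseChange S z =
      (G a).baseChange S ((G b).baseChange S z) := by
    intro a b z
    rw [hGadd, LinearMap.baseChange_comp]
    rfl
  have hGinjb : ∀ m, Function.Injective ((G m).baseChange S) := fun m =>
    Function.LeftInverse.injective (hHGb m)
  -- every element of `S ⊗ N₁₂` becomes an element of `S ⊗ N₁` after multiplying by a power
  have key : ∀ z : S ⊗[R] N₁₂, ∃ (m : ℕ) (x : S ⊗[R] N₁),
      (G m).baseChange S z = ι.baseChange S x := by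
    intro z
    induction z using TensorProduct.induction_on with
    | zero => exact ⟨0, 0, by simp⟩
    | tmul c y =>
      obtain ⟨n, m, hnm⟩ := hsurj y
      exact ⟨m, c ⊗ₜ n, by simp [LinearMap.baseChange_tmul, hnm]⟩
    | add z₁ z₂ h₁ h₂ =>
      obtain ⟨m₁, x₁, hx₁⟩ := h₁
      obtain ⟨m₂, x₂, hx₂⟩ := h₂
      refine ⟨m₁ + m₂, (F m₂).baseChange S x₁ + (F m₁).baseChange S x₂, ?_⟩
      rw [map_add, map_add, hιFb, hιFb, ← hx₁, ← hx₂, ← hGaddb, ← hGaddb, add_comm m₂ m₁]
  constructor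
  · rw [injective_iff_map_eq_zero]
    intro z hz
    obtain ⟨m, x, hx⟩ := key z
    have h1 : ι' (E x) = 0 := by
      rw [← hT', ← hx, hTG', hz, map_zero]
    obtain ⟨e, he⟩ := hker' _ h1
    have h2 : (F e).baseChange S x = 0 := by
      apply hE.1
      rw [hEF', he, map_zero]
    have h3 : (G e).baseChange S ((G m).baseChange S z) = 0 := by
      rw [hx, ← hιFb, h2, map_zero]
    have h4 : (G m).baseChange S z = 0 := hGinjb e (by rw [h3, map_zero])
    exact hGinjb m (by rw [h4, map_zero])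
  · intro y'
    obtain ⟨n', m, hn'⟩ := hsurj' y'
    obtain ⟨x, rfl⟩ := hE.2 n'
    refine ⟨(H m).baseChange S (ι.baseChange S x), ?_⟩
    apply hG'inj m
    rw [← hTG', hGHb, hT', hn']

end Part2

/-! ### Part 3: kernels and cokernels of conjugate maps -/

section Part3

variable {K : Type*} [Field K] {V W V' W' : Type*} [AddCommGroup V] [Module K V]
  [AddCommGroup W] [Module K W] [AddCommGroup V'] [Module K V'] [AddCommGroup W'] [Module K W']

theorem finrank_ker_coker_eq (D : V →ₗ[K] W) (d' : V' →ₗ[K] W') (P : V ≃ₗ[K] V')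
    (Q : W ≃ₗ[K] W') (h : ∀ x, Q (D x) = d' (P x)) :
    Module.finrank K (LinearMap.ker D) = Module.finrank K (LinearMap.ker d') ∧
      Module.finrank K (W ⧸ LinearMap.range D) = Module.finrank K (W' ⧸ LinearMap.range d') := by
  constructor
  · have hker : LinearMap.ker D = (LinearMap.ker d').comap P.toLinearMap := by
      ext x
      rw [Submodule.mem_comap, LinearMap.mem_ker, LinearMap.mem_ker]
      change D x = 0 ↔ d' (P x) = 0
      rw [← h, LinearEquiv.map_eq_zero_iff]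
    rw [hker]
    exact LinearEquiv.finrank_eq (P.ofSubmodule' (LinearMap.ker d'))
  · have hrange : (LinearMap.range D).map Q.toLinearMap = LinearMap.range d' := by
      ext y
      constructor
      · rintro ⟨_, ⟨x, rfl⟩, rfl⟩
        exact ⟨P x, (h x).symm⟩
      · rintro ⟨x', rfl⟩
        refine ⟨D (P.symm x'), ⟨_, rfl⟩, ?_⟩
        change Q (D (P.symm x')) = d' x'
        rw [h, LinearEquiv.apply_symm_apply]
    exact LinearEquiv.finrank_eq (Submodule.Quotient.equiv _ _ Q hrange)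

end Part3

/-! ### Part 1b: the pushout square of tensor-product charts -/

section Part1b

variable {k R S A N N' : Type u} [CommRing k] [CommRing R] [CommRing S] [CommRing A]
  [Algebra k R] [Algebra k S] [Algebra k A] [Algebra R S] [IsScalarTower k R S]
  [AddCommGroup N] [Module R N] [Module (R ⊗[k] A) N] [IsScalarTower R (R ⊗[k] A) N]
  [AddCommGroup N'] [Module R N'] [Module S N'] [Module (S ⊗[k] A) N']
  [IsScalarTower S (S ⊗[k] A) N'] [IsScalarTower R S N']

theorem bijective_liftBaseChange_tensor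
    (ψ : R ⊗[k] A →+* S ⊗[k] A)
    (hψ : ∀ (r : R) (a : A), ψ (r ⊗ₜ[k] a) = algebraMap R S r ⊗ₜ[k] a)
    (J : N →ₗ[R] N') (hJ : ∀ (b : R ⊗[k] A) (n : N), J (b • n) = ψ b • J n)
    (univ : ∀ (Q : Type u) [AddCommGroup Q] [Module (S ⊗[k] A) Q] (h : N →+ Q),
      (∀ (b : R ⊗[k] A) (n : N), h (b • n) = ψ b • h n) →
        ∃! h' : N' →ₗ[S ⊗[k] A] Q, ∀ n, h' (J n) = h n) :
    Function.Bijective (J.liftBaseChange S) := by
  letI : Algebra (R ⊗[k] A) (S ⊗[k] A) := ψ.toAlgebra
  haveI : IsScalarTower R (R ⊗[k] A) (S ⊗[k] A) := IsScalarTower.of_algebraMap_eq (fun r => by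
    change algebraMap R (S ⊗[k] A) r = ψ (algebraMap R (R ⊗[k] A) r)
    rw [Algebra.TensorProduct.algebraMap_apply, Algebra.TensorProduct.algebraMap_apply, hψ]
    simp)
  haveI : Algebra.IsPushout R S (R ⊗[k] A) (S ⊗[k] A) :=
    Algebra.IsPushout.tensorProduct_tensorProduct k A R S (by
      ext a
      change ψ (1 ⊗ₜ a) = 1 ⊗ₜ a
      rw [hψ, map_one])
  exact bijective_liftBaseChange_of_univ J hJ univ

end Part1b

/-- Multiplication by `b : B` on a `B`-module, as an `R`-linear map. -/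
def mulR (R : Type*) {B N : Type*} [CommRing R] [CommRing B] [Algebra R B] [AddCommGroup N]
    [Module R N] [Module B N] [IsScalarTower R B N] (b : B) : N →ₗ[R] N :=
  (LinearMap.lsmul B N b).restrictScalars R

@[simp] theorem mulR_apply (R : Type*) {B N : Type*} [CommRing R] [CommRing B] [Algebra R B]
    [AddCommGroup N] [Module R N] [Module B N] [IsScalarTower R B N] (b : B) (n : N) :
    mulR R b n = b • n := rfl

/-! ### Part 4: the curve charts -/

section Part4

variable {k : Type u} [Field k] (𝒞 : CurveData k)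
  {R κ : Type u} [CommRing R] [Algebra k R] [Field κ] [Algebra k κ] [Algebra R κ]

open GluedModule

/-- **Bridge.**  If `L'` is a base change of `L` along `φ : R → κ` (in the relational sense of
the frozen interface), the Euler characteristic of `L'` is the index of the fibre complex
`L.d.baseChange κ`. -/
theorem chi_eq_of_baseChangeData (φ : R →ₐ[k] κ) (hφ : ∀ r, φ r = algebraMap R κ r)
    (L : GluedModule (𝒞.chart R)) (L' : GluedModule (𝒞.chart κ))
    (d : BaseChangeData (𝒞.chartHom φ) L L') :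
    GluedModule.chi L' = (Module.finrank κ (LinearMap.ker (L.d.baseChange κ)) : ℤ) -
      (Module.finrank κ ((κ ⊗[R] L.N₁₂) ⧸ LinearMap.range (L.d.baseChange κ)) : ℤ) := by
  haveI : IsScalarTower k R κ := IsScalarTower.of_algebraMap_eq (fun c => by
    rw [← hφ, φ.commutes])
  have hφ' : ∀ r, (φ : R →+* κ) r = algebraMap R κ r := hφ
  -- `R`-module structures on the modules of `L'`
  letI m₁ : Module R L'.N₁ := Module.compHom L'.N₁ (algebraMap R κ)
  letI m₂ : Module R L'.N₂ := Module.compHom L'.N₂ (algebraMap R κ)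
  letI m₁₂ : Module R L'.N₁₂ := Module.compHom L'.N₁₂ (algebraMap R κ)
  haveI t₁ : IsScalarTower R κ L'.N₁ := ⟨fun r c n => by
    change (r • c) • n = algebraMap R κ r • c • n
    rw [Algebra.smul_def, mul_smul]⟩
  haveI t₂ : IsScalarTower R κ L'.N₂ := ⟨fun r c n => by
    change (r • c) • n = algebraMap R κ r • c • n
    rw [Algebra.smul_def, mul_smul]⟩
  haveI t₁₂ : IsScalarTower R κ L'.N₁₂ := ⟨fun r c n => by
    change (r • c) • n = algebraMap R κ r • c • n
    rw [Algebra.smul_def, mul_smul]⟩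
  -- the `R`-linear comparison maps
  let J₁ : L.N₁ →ₗ[R] L'.N₁ :=
    { toFun := d.j₁
      map_add' := d.j₁.map_add
      map_smul' := fun r n => by
        change d.j₁ (r • n) = algebraMap R κ r • d.j₁ n
        rw [← algebraMap_smul (𝒞.chart R).B₁ r n, d.j₁_smul, (𝒞.chartHom φ).alg₁, hφ',
          algebraMap_smul] }
  let J₂ : L.N₂ →ₗ[R] L'.N₂ :=
    { toFun := d.j₂
      map_add' := d.j₂.map_add
      map_smul' := fun r n => by
        change d.j₂ (r • n) = algebraMap R κ r • d.j₂ n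
        rw [← algebraMap_smul (𝒞.chart R).B₂ r n, d.j₂_smul, (𝒞.chartHom φ).alg₂, hφ',
          algebraMap_smul] }
  let J₁₂ : L.N₁₂ →ₗ[R] L'.N₁₂ :=
    { toFun := d.j₁₂
      map_add' := d.j₁₂.map_add
      map_smul' := fun r n => by
        change d.j₁₂ (r • n) = algebraMap R κ r • d.j₁₂ n
        rw [← algebraMap_smul (𝒞.chart R).B₁₂ r n, d.j₁₂_smul, (𝒞.chartHom φ).alg₁₂, hφ',
          algebraMap_smul] }
  -- chart 1 and chart 2: bijectivity from the universal property
  have hE₁ : Function.Bijective (J₁.liftBaseChange κ) := by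
    letI : Module (R ⊗[k] 𝒞.A₁) L.N₁ := L.mod₁
    haveI : IsScalarTower R (R ⊗[k] 𝒞.A₁) L.N₁ := L.tower₁
    letI : Module (κ ⊗[k] 𝒞.A₁) L'.N₁ := L'.mod₁
    haveI : IsScalarTower κ (κ ⊗[k] 𝒞.A₁) L'.N₁ := L'.tower₁
    refine bijective_liftBaseChange_tensor (k := k) (A := 𝒞.A₁) (𝒞.chartHom φ).ψ₁ ?_ J₁
      (fun b n => d.j₁_smul b n) (fun Q _ mQ h hh => by
        letI : Module (𝒞.chart κ).B₁ Q := mQ
        exact d.univ₁ Q h hh)
    intro r a
    change Algebra.TensorProduct.map φ (AlgHom.id k 𝒞.A₁) (r ⊗ₜ[k] a) = _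
    rw [Algebra.TensorProduct.map_tmul, hφ]
    rfl
  have hE₂ : Function.Bijective (J₂.liftBaseChange κ) := by
    letI : Module (R ⊗[k] 𝒞.A₂) L.N₂ := L.mod₂
    haveI : IsScalarTower R (R ⊗[k] 𝒞.A₂) L.N₂ := L.tower₂
    letI : Module (κ ⊗[k] 𝒞.A₂) L'.N₂ := L'.mod₂
    haveI : IsScalarTower κ (κ ⊗[k] 𝒞.A₂) L'.N₂ := L'.tower₂
    refine bijective_liftBaseChange_tensor (k := k) (A := 𝒞.A₂) (𝒞.chartHom φ).ψ₂ ?_ J₂
      (fun b n => d.j₂_smul b n) (fun Q _ mQ h hh => by
        letI : Module (𝒞.chart κ).B₂ Q := mQ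
        exact d.univ₂ Q h hh)
    intro r a
    change Algebra.TensorProduct.map φ (AlgHom.id k 𝒞.A₂) (r ⊗ₜ[k] a) = _
    rw [Algebra.TensorProduct.map_tmul, hφ]
    rfl
  -- the overlap: bijectivity by localisation
  have hf : (𝒞.chartHom φ).ψ₁₂ ((𝒞.chart R).r₁ (𝒞.chart R).f) = (𝒞.chart κ).r₁ (𝒞.chart κ).f := by
    rw [(𝒞.chartHom φ).comm₁, (𝒞.chartHom φ).map_f]
  have hT₁₂ : Function.Bijective (J₁₂.liftBaseChange κ) := by
    refine bijective_of_localization (R := R) (S := κ) L.ι₁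
      (fun m => mulR R ((𝒞.chart R).f ^ m))
      (fun m => mulR R ((𝒞.chart R).r₁ (𝒞.chart R).f ^ m))
      (fun m => mulR R ((𝒞.chart R).r₂ (𝒞.chart R).g ^ m)) ?_ ?_ ?_ ?_ ?_
      L'.ι₁ (fun m => mulR κ ((𝒞.chart κ).f ^ m))
      (fun m => mulR κ ((𝒞.chart κ).r₁ (𝒞.chart κ).f ^ m))
      ?_ ?_ ?_ (J₁.liftBaseChange κ) hE₁ (J₁₂.liftBaseChange κ) ?_ ?_ ?_
    · intro m
      ext y
      change (𝒞.chart R).r₁ (𝒞.chart R).f ^ m • (𝒞.chart R).r₂ (𝒞.chart R).g ^ m • y = y
      rw [← mul_smul, ← mul_pow, (𝒞.chart R).fg, one_pow, one_smul]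
    · intro m
      ext y
      change (𝒞.chart R).r₂ (𝒞.chart R).g ^ m • (𝒞.chart R).r₁ (𝒞.chart R).f ^ m • y = y
      rw [← mul_smul, ← mul_pow, (𝒞.chart R).gf, one_pow, one_smul]
    · intro a b
      ext y
      change (𝒞.chart R).r₁ (𝒞.chart R).f ^ (a + b) • y =
        (𝒞.chart R).r₁ (𝒞.chart R).f ^ a • (𝒞.chart R).r₁ (𝒞.chart R).f ^ b • y
      rw [pow_add, mul_smul]
    · intro m
      ext n
      change L.ι₁ ((𝒞.chart R).f ^ m • n) = (𝒞.chart R).r₁ (𝒞.chart R).f ^ m • L.ι₁ n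
      rw [L.ι₁_smul, map_pow]
    · intro y
      obtain ⟨n, m, h⟩ := L.surj₁ y
      refine ⟨n, m, ?_⟩
      change (𝒞.chart R).r₁ (𝒞.chart R).f ^ m • y = L.ι₁ n
      rw [h, ← mul_smul, ← mul_pow, (𝒞.chart R).fg, one_pow, one_smul]
    · intro m y₁ y₂ h
      have h' : (𝒞.chart κ).r₁ (𝒞.chart κ).f ^ m • y₁ = (𝒞.chart κ).r₁ (𝒞.chart κ).f ^ m • y₂ := h
      have h'' := congrArg (fun z => (𝒞.chart κ).r₂ (𝒞.chart κ).g ^ m • z) h'
      simpa only [← mul_smul, ← mul_pow, (𝒞.chart κ).gf, one_pow, one_smul] using h''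
    · intro y
      obtain ⟨n, m, h⟩ := L'.surj₁ y
      refine ⟨n, m, ?_⟩
      change (𝒞.chart κ).r₁ (𝒞.chart κ).f ^ m • y = L'.ι₁ n
      rw [h, ← mul_smul, ← mul_pow, (𝒞.chart κ).fg, one_pow, one_smul]
    · intro n hn
      obtain ⟨m, hm⟩ := L'.ker₁ n hn
      exact ⟨m, hm⟩
    · ext n
      change (1 : κ) • d.j₁₂ (L.ι₁ n) = L'.ι₁ ((1 : κ) • d.j₁ n)
      rw [one_smul, one_smul, d.comm₁]
    · intro m
      ext n
      change (1 : κ) • d.j₁ ((𝒞.chart R).f ^ m • n) = (𝒞.chart κ).f ^ m • ((1 : κ) • d.j₁ n)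
      rw [one_smul, one_smul, d.j₁_smul, map_pow, (𝒞.chartHom φ).map_f]
    · intro m
      ext y
      change (1 : κ) • d.j₁₂ ((𝒞.chart R).r₁ (𝒞.chart R).f ^ m • y) =
        (𝒞.chart κ).r₁ (𝒞.chart κ).f ^ m • ((1 : κ) • d.j₁₂ y)
      rw [one_smul, one_smul, d.j₁₂_smul, map_pow, hf]
  -- assemble
  let E₁ := LinearEquiv.ofBijective (J₁.liftBaseChange κ) hE₁
  let E₂ := LinearEquiv.ofBijective (J₂.liftBaseChange κ) hE₂
  let Q := LinearEquiv.ofBijective (J₁₂.liftBaseChange κ) hT₁₂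
  let P : κ ⊗[R] (L.N₁ × L.N₂) ≃ₗ[κ] L'.N₁ × L'.N₂ :=
    (TensorProduct.prodRight R κ κ L.N₁ L.N₂).trans (E₁.prodCongr E₂)
  have hsq : ∀ x, Q (L.d.baseChange κ x) = L'.d (P x) := by
    intro x
    induction x using TensorProduct.induction_on with
    | zero => simp
    | tmul c ab =>
      change c • d.j₁₂ (L.d ab) = L'.d (c • d.j₁ ab.1, c • d.j₂ ab.2)
      rw [GluedModule.d_apply, GluedModule.d_apply, map_sub, d.comm₁, d.comm₂, smul_sub,
        map_smul, map_smul]
    | add x y hx hy => rw [map_add, map_add, map_add, map_add, hx, hy]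
  obtain ⟨h0, h1⟩ := finrank_ker_coker_eq (L.d.baseChange κ) L'.d P Q hsq
  change (Module.finrank κ (LinearMap.ker L'.d) : ℤ) -
    (Module.finrank κ (L'.N₁₂ ⧸ LinearMap.range L'.d) : ℤ) = _
  rw [← h0, ← h1]

/-- The bridge, for the relation `IsBC`. -/
theorem chi_eq_of_isBC (φ : R →ₐ[k] κ) (hφ : ∀ r, φ r = algebraMap R κ r)
    (L : GluedModule (𝒞.chart R)) (L' : GluedModule (𝒞.chart κ))
    (h : IsBC (𝒞.chartHom φ) L L') :
    GluedModule.chi L' = (Module.finrank κ (LinearMap.ker (L.d.baseChange κ)) : ℤ) -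
      (Module.finrank κ ((κ ⊗[R] L.N₁₂) ⧸ LinearMap.range (L.d.baseChange κ)) : ℤ) :=
  h.elim (fun d => chi_eq_of_baseChangeData 𝒞 φ hφ L L' d)

end Part4

end Fermat.Agent.S25.DEG.Bridge6190
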